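/-
Programme DS (S48), chapter G-DIM, brick DIM-6 (helper2; spec of helper26, msg 2592): **`Aut ℂ`
stability of `S₂(Γ)` from the dictionary "regular differential `h dj` of the function field
`FFc L ℂ = ℂ · L.F₀` ⇒ cusp form with `q`-expansion `h θ`"**, worked out over the coefficient field
`ℂ` (no descent to `ℚbar`).

* `arithmeticGalois_smul_jFc`, `coe_smul_mul`, `coeff_smul_mul` : the coefficientwise action of
  `σ ∈ Aut(Lc / ℚ)` on `FFc L Lc ⊆ Lc((q))` fixes the formal `j` and commutes with multiplication by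
  a series with rational coefficients (twins of `S23/GaloisReg`, section `Modular`).
* `autStable_of_low` : if every `h ∈ L(div dj)` is the `q`-expansion (up to the factor `θ`) of a
  cusp form of weight two for `Γ` and `dim S₂(Γ) ≤ dim L(div dj)`, then every cusp form arises in this
  way, and `S₂(Γ)` is stable under `Aut ℂ` acting on `q`-expansions.
-/
import Mathlib
import Fermat.Agent.DS.G.Level
import Fermat.Agent.S23.GaloisReg
import Fermat.Agent.S20.DictRank
import Fermat.Agent.DS.G.Dim.QCoeffG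

set_option autoImplicit false
set_option linter.style.haveILetI false
set_option linter.unusedSectionVars false

namespace Fermat.Agent.DS.G.Dim.AutStableC

open Module AlgebraicCurve KaehlerDifferential ModularCurve
open Fermat.Agent.X0.FF Fermat.Agent.DS.G.Level Fermat.Agent.S20.DictRank

/-! ### The coefficientwise Galois action on `FFc L Lc` -/

section Galois

variable (L : LevelData) (Lc : Type) [Field Lc] [Algebra ℚ Lc]

/-- The arithmetic Galois action fixes the formal `j`. -/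
theorem arithmeticGalois_smul_jFc (σ : Lc ≃ₐ[ℚ] Lc) :
    arithmeticGalois L.F₀ σ • jFc L Lc = jFc L Lc := by
  apply Subtype.ext
  rw [coe_arithmeticGalois_smul]
  exact coeffMap_coeffEmb σ _

variable {Lc}

/-- A Laurent series with rational coefficients is fixed by the coefficientwise Galois action. -/
theorem coeffMap_eq_self_of_rat (σ : Lc ≃ₐ[ℚ] Lc) (θ : LaurentSeries Lc)
    (hθ : ∀ k : ℤ, ∃ r : ℚ, θ.coeff k = algebraMap ℚ Lc r) :
    coeffMap (σ : Lc →+* Lc) θ = θ := by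
  ext k
  obtain ⟨r, hr⟩ := hθ k
  rw [coeffMap_coeff, hr]
  exact σ.commutes r

/-- Coefficientwise description of `(σ • h) * θ` for `θ` with Galois-fixed coefficients. -/
theorem coe_smul_mul (σ : Lc ≃ₐ[ℚ] Lc) (h : FFc L Lc) (θ : LaurentSeries Lc)
    (hθ : coeffMap (σ : Lc →+* Lc) θ = θ) :
    ((arithmeticGalois L.F₀ σ • h : FFc L Lc) : LaurentSeries Lc) * θ
      = coeffMap (σ : Lc →+* Lc) ((h : LaurentSeries Lc) * θ) := by
  rw [map_mul, hθ, coe_arithmeticGalois_smul]

theorem coeff_smul_mul (σ : Lc ≃ₐ[ℚ] Lc) (h : FFc L Lc) (θ : LaurentSeries Lc)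
    (hθ : coeffMap (σ : Lc →+* Lc) θ = θ) (k : ℤ) :
    (((arithmeticGalois L.F₀ σ • h : FFc L Lc) : LaurentSeries Lc) * θ).coeff k
      = σ (((h : LaurentSeries Lc) * θ).coeff k) := by
  rw [coe_smul_mul L σ h θ hθ, coeffMap_coeff]
  rfl

theorem coe_smul_FFc (a : Lc) (x : FFc L Lc) :
    ((a • x : FFc L Lc) : LaurentSeries Lc) = HahnSeries.C a * (x : LaurentSeries Lc) := by
  rw [Algebra.smul_def]
  show (algebraMap Lc (LaurentSeries Lc) a) * (x : LaurentSeries Lc) = _
  rw [algebraMap_laurentSeries_eq_single]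
  rfl

variable (Lc) in
/-- The inclusion `FFc L Lc → Lc((q))` as an `Lc`-linear map. -/
noncomputable def valLin : FFc L Lc →ₗ[Lc] LaurentSeries Lc where
  toFun h := (h : LaurentSeries Lc)
  map_add' _ _ := rfl
  map_smul' a h := by
    rw [RingHom.id_apply, ← HahnSeries.C_mul_eq_smul]
    exact coe_smul_FFc L a h

@[simp] theorem valLin_apply (h : FFc L Lc) : valLin L Lc h = (h : LaurentSeries Lc) := rfl

theorem valLin_injective : Function.Injective (valLin L Lc) := Subtype.val_injective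

end Galois

/-! ### The main theorem -/

section Main

open ModularFormClass Fermat.Agent.DS.G.Dim.QCoeffG

/-- **DIM-6 over `ℂ`.**  `Aut ℂ`-stability of `S₂(Γ)` from the dictionary `hLow` (DIM-5 at
`Lc = ℂ`) and the dimension inequality `hdim` (DIM-4 + Riemann–Roch). -/
theorem autStable_of_low (L : LevelData) (hx : IsGen ℂ (jFc L ℂ)) (W : Divisor ℂ (FFc L ℂ))
    (hW : ∀ v : Place ℂ (FFc L ℂ), W v = v.ordDifferential (D ℂ (FFc L ℂ) (jFc L ℂ)))
    (θ : LaurentSeries ℂ) (hθ0 : θ ≠ 0) (hθrat : ∀ k : ℤ, ∃ r : ℚ, θ.coeff k = (r : ℂ))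
    {Γ : Subgroup (GL (Fin 2) ℝ)} [Γ.HasDetOne] (h1 : (1 : ℝ) ∈ Γ.strictPeriods)
    [FiniteDimensional ℂ (CuspForm Γ 2)] [FiniteDimensional ℂ (riemannRochSpace W)]
    (hLow : ∀ h : FFc L ℂ,
      (∀ v : Place ℂ (FFc L ℂ), 0 ≤ v.ordDifferential (h • D ℂ (FFc L ℂ) (jFc L ℂ))) →
      ∃ f : CuspForm Γ 2,
        (∀ n : ℕ, qCoeff f n = ((h : LaurentSeries ℂ) * θ).coeff (n : ℤ)) ∧
        ∀ k : ℤ, k < 0 → ((h : LaurentSeries ℂ) * θ).coeff k = 0)
    (hdim : finrank ℂ (CuspForm Γ 2) ≤ finrank ℂ (riemannRochSpace W)) :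
    ∀ (σ : ℂ ≃+* ℂ) (F : CuspForm Γ 2), ∃ G : CuspForm Γ 2,
      ∀ n : ℕ, qCoeff G n = σ (qCoeff F n) := by
  classical
  intro σ F
  have hreg : ∀ h : FFc L ℂ, h ∈ riemannRochSpace W →
      ∀ v : Place ℂ (FFc L ℂ), 0 ≤ v.ordDifferential (h • D ℂ (FFc L ℂ) (jFc L ℂ)) :=
    fun h hh => (Fermat.Agent.S23.GaloisReg.mem_riemannRochSpace_iff_regular hx W hW h).mp hh
  -- the coefficient map on `L(W)`
  set c : riemannRochSpace W →ₗ[ℂ] (ℕ → ℂ) :=
    (coeffNat θ) ∘ₗ (valLin L ℂ) ∘ₗ (riemannRochSpace W).subtype with hc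
  have hc_apply : ∀ (h : riemannRochSpace W) (n : ℕ),
      c h n = (((h : FFc L ℂ) : LaurentSeries ℂ) * θ).coeff (n : ℤ) := fun _ _ => rfl
  have hcinj : Function.Injective c := by
    rw [injective_iff_map_eq_zero]
    intro h hh
    have hz : ((h : FFc L ℂ) : LaurentSeries ℂ) * θ = 0 := by
      ext k
      rcases lt_or_ge k 0 with hk | hk
      · obtain ⟨f, -, hneg⟩ := hLow h (hreg h h.2)
        simpa using hneg k hk
      · obtain ⟨n, rfl⟩ := Int.eq_ofNat_of_zero_le hk
        have := congrFun hh n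
        rw [hc_apply] at this
        simpa using this
    rcases mul_eq_zero.mp hz with h0 | h0
    · exact Subtype.ext (Subtype.ext h0)
    · exact absurd h0 hθ0
  -- the two ranges
  set Q : CuspForm Γ 2 →ₗ[ℂ] (ℕ → ℂ) := qCoeffLin h1 2 with hQ
  have hQinj : Function.Injective Q := qCoeffLin_injective h1 2
  have hle : LinearMap.range c ≤ LinearMap.range Q := by
    rintro _ ⟨h, rfl⟩
    obtain ⟨f, hf, -⟩ := hLow h (hreg h h.2)
    refine ⟨f, ?_⟩
    funext n
    rw [hc_apply, ← hf n]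
    rfl
  have hfr : finrank ℂ (LinearMap.range Q) ≤ finrank ℂ (LinearMap.range c) := by
    rw [LinearMap.finrank_range_of_inj hQinj, LinearMap.finrank_range_of_inj hcinj]
    exact hdim
  have heq : LinearMap.range c = LinearMap.range Q := Submodule.eq_of_le_of_finrank_le hle hfr
  -- `F` comes from a regular differential
  have hF : Q F ∈ LinearMap.range c := by rw [heq]; exact ⟨F, rfl⟩
  obtain ⟨h, hh⟩ := hF
  -- conjugate
  set σ' : ℂ ≃ₐ[ℚ] ℂ := σ.toRatAlgEquiv with hσ'
  have hθσ : coeffMap (σ' : ℂ →+* ℂ) θ = θ :=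
    coeffMap_eq_self_of_rat σ' θ fun k => by
      obtain ⟨r, hr⟩ := hθrat k
      exact ⟨r, by rw [hr]; rfl⟩
  have hmem : arithmeticGalois L.F₀ σ' • (h : FFc L ℂ) ∈ riemannRochSpace W :=
    Fermat.Agent.S23.GaloisReg.smul_mem_riemannRochSpace hx W hW _
      (arithmeticGalois_smul_jFc L ℂ σ') h.2
  obtain ⟨G, hG, -⟩ := hLow _ (hreg _ hmem)
  refine ⟨G, fun n => ?_⟩
  rw [hG n, coeff_smul_mul L σ' (h : FFc L ℂ) θ hθσ, ← hc_apply, hh]
  rfl

end Main

end Fermat.Agent.DS.G.Dim.AutStableC
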