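/-
DS programme, chapter G-DIM, brick DIM-1 (helper26): the space of parabolic additive characters
of ANY finite-index subgroup `Γ ≤ SL(2, ℤ)` containing `-1` is finite-dimensional, and

  `dim P + #(⟨S⟩-orbits) + #(⟨S T⟩-orbits) + #(⟨T⟩-orbits) ≤ [SL(2, ℤ) : Γ] + 2`

on the coset space `SL(2, ℤ) ⧸ Γ`.  Generic twin of `S21/ParBound.main_bound` (which is stated for
`Γ₀(N)`); instantiation of `S21/ParAbstract.GenData.main` with `s = S`, `u = S T`, `w = -1`.
No index / cusp / elliptic-point numerics: the same orbit counts appear in the Riemann–Hurwitz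
count of the function field (`GenusCountG`).
-/
import Mathlib
import Fermat.Prelude.Def_ModularCurve_PeriodMap
import Fermat.Agent.S21.ParAbstract

set_option autoImplicit false

open Matrix MatrixGroups ModularGroup

noncomputable section

namespace Fermat.Agent.DS.G.Dim.ParBoundG

open Fermat.Agent.S21.ParAbstract ModularCurve.Period

lemma S_mul_S : (S * S : SL(2, ℤ)) = -1 := by
  ext i j
  fin_cases i <;> fin_cases j <;>
    simp [Matrix.SpecialLinearGroup.coe_mul, coe_S, Matrix.mul_apply, Fin.sum_univ_two]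

lemma ST_cube : (S * T * (S * T) * (S * T) : SL(2, ℤ)) = -1 := by
  ext i j
  fin_cases i <;> fin_cases j <;>
    simp [Matrix.SpecialLinearGroup.coe_mul, coe_S, coe_T, Matrix.mul_apply, Fin.sum_univ_two]

lemma closure_S_ST : Subgroup.closure ({S, S * T} : Set SL(2, ℤ)) = ⊤ := by
  rw [eq_top_iff, ← SpecialLinearGroup.SL2Z_generators, Subgroup.closure_le]
  rintro z (rfl | rfl)
  · exact Subgroup.subset_closure (Set.mem_insert _ _)
  · have h1 : (S : SL(2, ℤ)) ∈ Subgroup.closure ({S, S * T} : Set SL(2, ℤ)) :=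
      Subgroup.subset_closure (Set.mem_insert _ _)
    have h2 : (S * T : SL(2, ℤ)) ∈ Subgroup.closure ({S, S * T} : Set SL(2, ℤ)) :=
      Subgroup.subset_closure (Set.mem_insert_of_mem _ rfl)
    have h3 := Subgroup.mul_mem _ (Subgroup.inv_mem _ h1) h2
    rwa [inv_mul_cancel_left] at h3

/-- the generation data for a subgroup `Γ ≤ SL(2, ℤ)` containing `-1`. -/
def gammaData (Γ : Subgroup SL(2, ℤ)) (hneg : (-1 : SL(2, ℤ)) ∈ Γ) : GenData Γ where
  s := S
  u := S * T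
  w := -1
  gen := closure_S_ST
  hs := S_mul_S
  hu := ST_cube
  w_central := fun g => by rw [neg_mul, one_mul, mul_neg, mul_one]
  w_mem := hneg
  w_sq := by simp

lemma gammaData_t (Γ : Subgroup SL(2, ℤ)) (hneg : (-1 : SL(2, ℤ)) ∈ Γ) :
    (gammaData Γ hneg).t = T := by
  show S⁻¹ * (S * T) = T
  rw [inv_mul_cancel_left]

lemma trace_conj_T_pow (g : SL(2, ℤ)) (k : ℕ) :
    ((g⁻¹ * T ^ k * g : SL(2, ℤ)) : Matrix (Fin 2) (Fin 2) ℤ).trace = 2 := by
  rw [Matrix.SpecialLinearGroup.coe_mul, Matrix.trace_mul_comm,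
    ← Matrix.SpecialLinearGroup.coe_mul, mul_inv_cancel_left]
  have h := ModularGroup.coe_T_zpow (k : ℤ)
  rw [zpow_natCast] at h
  rw [h]
  simp [Matrix.trace_fin_two]

/-- parabolic characters (in the sense of the Prelude) are parabolic in the abstract sense. -/
lemma isPar_of_mem (Γ : Subgroup SL(2, ℤ)) (hneg : (-1 : SL(2, ℤ)) ∈ Γ)
    (φ : Additive Γ →+ ℂ) (hφ : φ ∈ parabolicHoms ℂ Γ ℂ) : (gammaData Γ hneg).IsPar φ := by
  intro g k hmem
  rw [gammaData_t] at hmem ⊢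
  rw [ext0_of_mem φ hmem]
  refine hφ ⟨g⁻¹ * T ^ k * g, hmem⟩ ?_
  show ((g⁻¹ * T ^ k * g : SL(2, ℤ)) : Matrix (Fin 2) (Fin 2) ℤ).trace ^ 2 = 4
  rw [trace_conj_T_pow]
  norm_num

/-- **DIM-1.** For a finite-index subgroup `Γ ≤ SL(2, ℤ)` containing `-1`:
`dim_ℂ parabolicHoms(Γ, ℂ) + o_S + o_{ST} + o_T ≤ [SL(2, ℤ) : Γ] + 2`. -/
theorem finrank_parabolicHoms_add_orbits_le (Γ : Subgroup SL(2, ℤ)) [Γ.FiniteIndex]
    (hneg : (-1 : SL(2, ℤ)) ∈ Γ) :
    Module.Finite ℂ (parabolicHoms ℂ Γ ℂ) ∧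
      Module.finrank ℂ (parabolicHoms ℂ Γ ℂ)
        + Nat.card (MulAction.orbitRel.Quotient (Subgroup.zpowers (S : SL(2, ℤ))) (SL(2, ℤ) ⧸ Γ))
        + Nat.card (MulAction.orbitRel.Quotient (Subgroup.zpowers (S * T : SL(2, ℤ)))
            (SL(2, ℤ) ⧸ Γ))
        + Nat.card (MulAction.orbitRel.Quotient (Subgroup.zpowers (T : SL(2, ℤ))) (SL(2, ℤ) ⧸ Γ))
        ≤ Nat.card (SL(2, ℤ) ⧸ Γ) + 2 := by
  have : Finite (SL(2, ℤ) ⧸ Γ) := Subgroup.finite_quotient_of_finiteIndex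
  have h := (gammaData Γ hneg).main (parabolicHoms ℂ Γ ℂ) (isPar_of_mem Γ hneg)
  rw [gammaData_t] at h
  exact h

theorem finite_parabolicHoms (Γ : Subgroup SL(2, ℤ)) [Γ.FiniteIndex]
    (hneg : (-1 : SL(2, ℤ)) ∈ Γ) : Module.Finite ℂ (parabolicHoms ℂ Γ ℂ) :=
  (finrank_parabolicHoms_add_orbits_le Γ hneg).1

end Fermat.Agent.DS.G.Dim.ParBoundG
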