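/-
DS programme, chapter G-DIM (helper26), bricks DIM-2b + DIM-4: **`dim S₂(Γ) ≤ genus`**.

For a function field `F / K` (`K` algebraically closed of characteristic `0`, `IsGen K x`,
`[HasCanonicalDivisor]`) and a finite-index subgroup `Γ ≤ SL(2, ℤ)` containing `-1`, suppose the
Riemann–Hurwitz orbit count of `DIM-2a/DIM-3` holds for the `SL(2, ℤ)`-set `X = SL(2, ℤ) ⧸ Γ`:

  `deg W + o(S * T) + o(S) + o(T) = |X|`       (`W` a canonical divisor, `o(g)` = number of
                                                `⟨g⟩`-orbits on `X`).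

Then
* `two_mul_genus_add_orbits`  : `2 * genus + o(S * T) + o(S) + o(T) = |X| + 2` (Riemann–Roch:
  `deg W = 2 genus - 2`);
* `finrank_parabolicHoms_le`  : `dim Hom_par(Γ, ℂ) ≤ 2 * genus` (`ParBoundG`: the same orbit counts
  bound `dim Hom_par`);
* `finrank_cuspForm_le_genus` : `dim S₂(Γ) ≤ genus` (`PER-B`: `2 dim S₂(Γ) ≤ dim Hom_par(Γ, ℂ)`).
No index / cusp / elliptic point formula is used.
-/
import Mathlib
import Fermat.Agent.DS.G.Dim.ParBoundG
import Fermat.Agent.DS.Per1.PerInj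
import Fermat.Agent.RR.RRMain

set_option autoImplicit false
set_option linter.unusedSectionVars false

open AlgebraicCurve KaehlerDifferential MulAction Subgroup
open scoped MatrixGroups

noncomputable section

namespace Fermat.Agent.DS.G.Dim.DimLe

open Fermat.Agent.X0.FF ModularGroup

variable {K F : Type*} [Field K] [Field F] [Algebra K F] [IsAlgClosed K] [CharZero K] {x : F}
  [HasCanonicalDivisor (K := K) (F := F)]

/-- **DIM-2b**: the Riemann–Hurwitz count in terms of the genus. -/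
theorem two_mul_genus_add_orbits (hx : IsGen K x) {ω : Ω[F⁄K]} (hω : ω ≠ 0) {W : Divisor K F}
    (hW : ∀ v : Place K F, W v = v.ordDifferential ω) {o₀ o₁ oI n : ℕ}
    (hcount : Divisor.degree W + o₀ + o₁ + oI = (n : ℤ)) :
    2 * genus K F + o₀ + o₁ + oI = n + 2 := by
  have h := Fermat.Agent.RR.RRMain.degree_canonical hx hω hW
  rw [h] at hcount
  omega

variable (Γ : Subgroup SL(2, ℤ)) [Γ.FiniteIndex]

/-- `dim Hom_par(Γ, ℂ) ≤ 2 * genus`. -/
theorem finrank_parabolicHoms_le (hneg : (-1 : SL(2, ℤ)) ∈ Γ) (hx : IsGen K x) {ω : Ω[F⁄K]}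
    (hω : ω ≠ 0) {W : Divisor K F} (hW : ∀ v : Place K F, W v = v.ordDifferential ω)
    (hcount : Divisor.degree W
        + Nat.card (orbitRel.Quotient (zpowers (S * T : SL(2, ℤ))) (SL(2, ℤ) ⧸ Γ))
        + Nat.card (orbitRel.Quotient (zpowers (S : SL(2, ℤ))) (SL(2, ℤ) ⧸ Γ))
        + Nat.card (orbitRel.Quotient (zpowers (T : SL(2, ℤ))) (SL(2, ℤ) ⧸ Γ))
        = (Nat.card (SL(2, ℤ) ⧸ Γ) : ℤ)) :
    Module.finrank ℂ (ModularCurve.Period.parabolicHoms ℂ Γ ℂ) ≤ 2 * genus K F := by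
  have h1 := two_mul_genus_add_orbits hx hω hW hcount
  have h2 := (ParBoundG.finrank_parabolicHoms_add_orbits_le Γ hneg).2
  omega

/-- **DIM-4**: `dim S₂(Γ) ≤ genus`. -/
theorem finrank_cuspForm_le_genus (hneg : (-1 : SL(2, ℤ)) ∈ Γ) (hx : IsGen K x) {ω : Ω[F⁄K]}
    (hω : ω ≠ 0) {W : Divisor K F} (hW : ∀ v : Place K F, W v = v.ordDifferential ω)
    (hcount : Divisor.degree W
        + Nat.card (orbitRel.Quotient (zpowers (S * T : SL(2, ℤ))) (SL(2, ℤ) ⧸ Γ))
        + Nat.card (orbitRel.Quotient (zpowers (S : SL(2, ℤ))) (SL(2, ℤ) ⧸ Γ))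
        + Nat.card (orbitRel.Quotient (zpowers (T : SL(2, ℤ))) (SL(2, ℤ) ⧸ Γ))
        = (Nat.card (SL(2, ℤ) ⧸ Γ) : ℤ)) :
    Module.finrank ℂ (CuspForm (Γ : Subgroup (GL (Fin 2) ℝ)) 2) ≤ genus K F := by
  have h1 := finrank_parabolicHoms_le Γ hneg hx hω hW hcount
  have h2 := Fermat.Agent.DS.Per1.PerInj.two_mul_finrank_le Γ
  have h3 : Module.finrank ℂ (Fermat.Agent.DS.Per1.PerG.CF Γ)
      = Module.finrank ℂ (CuspForm (Γ : Subgroup (GL (Fin 2) ℝ)) 2) := rfl
  omega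

/-- `S₂(Γ)` is finite-dimensional (re-export of `PER-B`). -/
theorem finiteDimensional_cuspForm :
    FiniteDimensional ℂ (CuspForm (Γ : Subgroup (GL (Fin 2) ℝ)) 2) :=
  Fermat.Agent.DS.Per1.PerInj.finite_CF Γ

end Fermat.Agent.DS.G.Dim.DimLe
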