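/-
Programme DS (S48), chapter G-DIM, brick DIM-7b (helper2): **transfer between `S₂(Γ₁(M))` and
`S₂(±Γ₁(M))`**.  In even weight `-1` acts trivially, so a function is a cusp form of weight two for
`Γ₁(M)` iff it is one for `Gamma1pm M = ±Γ₁(M)` (the group of the level `L1 M`); the underlying
function, hence the `q`-expansion, is unchanged.

* `slash_two_neg`       : `f ∣[2] (-γ) = f ∣[2] γ`;
* `toPm`, `toGamma1`    : the two transfer maps (same underlying function), `equivPm` the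
                          `ℂ`-linear equivalence;
* `wt2AutStable_of_pm`  : `Aut ℂ`-stability of `S₂(±Γ₁(M))` ⇒ `W1.ConjGlue.Wt2AutStable M`.
-/
import Mathlib
import Fermat.Agent.DS.X1.Level1
import Fermat.Agent.DS.W1.ConjGlue

set_option autoImplicit false
set_option linter.unusedSectionVars false

open Matrix.SpecialLinearGroup UpperHalfPlane CongruenceSubgroup ModularForm
open scoped MatrixGroups ModularForm

noncomputable section

namespace Fermat.Agent.DS.G.Dim.PmTransfer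

open Fermat.Agent.DS.X1.Level1 Fermat.Agent.DS.W1.Forms

/-- `-1` acts trivially in weight two. -/
theorem slash_two_neg (f : ℍ → ℂ) (γ : SL(2, ℤ)) : f ∣[(2 : ℤ)] (-γ) = f ∣[(2 : ℤ)] γ := by
  ext z
  rw [ModularForm.SL_slash_apply, ModularForm.SL_slash_apply]
  have h1 : ((-γ : SL(2, ℤ)) • z) = γ • z := ModularGroup.SL_neg_smul γ z
  have h2 : denom ((-γ : SL(2, ℤ)) : GL (Fin 2) ℝ) z
      = -denom ((γ : SL(2, ℤ)) : GL (Fin 2) ℝ) z := by
    simp [denom]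
    ring
  rw [h1, h2]
  congr 1
  rw [zpow_neg, zpow_neg, Even.neg_zpow even_two]

/-- `-1` acts trivially in weight two (`GL₂(ℝ)` form). -/
theorem slash_two_mapGL_neg (f : ℍ → ℂ) (γ : SL(2, ℤ)) :
    f ∣[(2 : ℤ)] (mapGL ℝ (-γ)) = f ∣[(2 : ℤ)] (mapGL ℝ γ) :=
  slash_two_neg f γ

variable (M : ℕ) [NeZero M]

instance finiteIndex_Gamma1pm : (Gamma1pm M).FiniteIndex :=
  Subgroup.finiteIndex_of_le (Gamma_le_Gamma1pm M)

theorem map_Gamma1_le_map_Gamma1pm :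
    ((Gamma1 M : Subgroup SL(2, ℤ)) : Subgroup (GL (Fin 2) ℝ)) ≤
      ((Gamma1pm M : Subgroup SL(2, ℤ)) : Subgroup (GL (Fin 2) ℝ)) :=
  Subgroup.map_mono (Gamma1_le_Gamma1pm M)

/-- A cusp form of weight two for `±Γ₁(M)`, viewed as a cusp form for `Γ₁(M)`. -/
def toGamma1 (f : CuspForm ((Gamma1pm M : Subgroup SL(2, ℤ)) : Subgroup (GL (Fin 2) ℝ)) 2) :
    CuspForm ((Gamma1 M : Subgroup SL(2, ℤ)) : Subgroup (GL (Fin 2) ℝ)) 2 :=
  restrictCusp (map_Gamma1_le_map_Gamma1pm M) f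

@[simp] theorem coe_toGamma1
    (f : CuspForm ((Gamma1pm M : Subgroup SL(2, ℤ)) : Subgroup (GL (Fin 2) ℝ)) 2) :
    (toGamma1 M f : ℍ → ℂ) = f := rfl

/-- A cusp form of weight two for `Γ₁(M)`, viewed as a cusp form for `±Γ₁(M)`. -/
def toPm (f : CuspForm ((Gamma1 M : Subgroup SL(2, ℤ)) : Subgroup (GL (Fin 2) ℝ)) 2) :
    CuspForm ((Gamma1pm M : Subgroup SL(2, ℤ)) : Subgroup (GL (Fin 2) ℝ)) 2 where
  toFun := f
  slash_action_eq' A hA := by
    obtain ⟨γ, hγ, rfl⟩ := hA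
    rcases hγ with h | h
    · exact f.slash_action_eq' _ ⟨γ, h, rfl⟩
    · have h2 : (f : ℍ → ℂ) ∣[(2 : ℤ)] (mapGL ℝ (-γ)) = f :=
        f.slash_action_eq' _ ⟨-γ, h, rfl⟩
      rw [slash_two_mapGL_neg] at h2
      exact h2
  holo' := f.holo'
  zero_at_cusps' hc := f.zero_at_cusps' (by
    rw [Subgroup.IsArithmetic.isCusp_iff_isCusp_SL2Z] at hc ⊢; exact hc)

@[simp] theorem coe_toPm
    (f : CuspForm ((Gamma1 M : Subgroup SL(2, ℤ)) : Subgroup (GL (Fin 2) ℝ)) 2) :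
    (toPm M f : ℍ → ℂ) = f := rfl

theorem toGamma1_toPm
    (f : CuspForm ((Gamma1 M : Subgroup SL(2, ℤ)) : Subgroup (GL (Fin 2) ℝ)) 2) :
    toGamma1 M (toPm M f) = f := DFunLike.coe_injective rfl

theorem toPm_toGamma1
    (f : CuspForm ((Gamma1pm M : Subgroup SL(2, ℤ)) : Subgroup (GL (Fin 2) ℝ)) 2) :
    toPm M (toGamma1 M f) = f := DFunLike.coe_injective rfl

theorem qCoeff_toPm
    (f : CuspForm ((Gamma1 M : Subgroup SL(2, ℤ)) : Subgroup (GL (Fin 2) ℝ)) 2) (n : ℕ) :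
    ModularFormClass.qCoeff (toPm M f) n = ModularFormClass.qCoeff f n := rfl

theorem qCoeff_toGamma1
    (f : CuspForm ((Gamma1pm M : Subgroup SL(2, ℤ)) : Subgroup (GL (Fin 2) ℝ)) 2) (n : ℕ) :
    ModularFormClass.qCoeff (toGamma1 M f) n = ModularFormClass.qCoeff f n := rfl

/-- The `ℂ`-linear equivalence `S₂(Γ₁(M)) ≃ S₂(±Γ₁(M))` (identity on functions). -/
def equivPm :
    CuspForm ((Gamma1 M : Subgroup SL(2, ℤ)) : Subgroup (GL (Fin 2) ℝ)) 2 ≃ₗ[ℂ]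
      CuspForm ((Gamma1pm M : Subgroup SL(2, ℤ)) : Subgroup (GL (Fin 2) ℝ)) 2 where
  toFun := toPm M
  invFun := toGamma1 M
  map_add' _ _ := DFunLike.coe_injective rfl
  map_smul' _ _ := DFunLike.coe_injective rfl
  left_inv := toGamma1_toPm M
  right_inv := toPm_toGamma1 M

@[simp] theorem equivPm_apply
    (f : CuspForm ((Gamma1 M : Subgroup SL(2, ℤ)) : Subgroup (GL (Fin 2) ℝ)) 2) :
    equivPm M f = toPm M f := rfl

/-- Finite-dimensionality transfers. -/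
theorem finiteDimensional_pm_iff :
    FiniteDimensional ℂ
        (CuspForm ((Gamma1pm M : Subgroup SL(2, ℤ)) : Subgroup (GL (Fin 2) ℝ)) 2) ↔
      FiniteDimensional ℂ
        (CuspForm ((Gamma1 M : Subgroup SL(2, ℤ)) : Subgroup (GL (Fin 2) ℝ)) 2) :=
  ⟨fun _ => LinearEquiv.finiteDimensional (equivPm M).symm,
    fun _ => LinearEquiv.finiteDimensional (equivPm M)⟩

theorem finrank_pm :
    Module.finrank ℂ
        (CuspForm ((Gamma1pm M : Subgroup SL(2, ℤ)) : Subgroup (GL (Fin 2) ℝ)) 2) =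
      Module.finrank ℂ
        (CuspForm ((Gamma1 M : Subgroup SL(2, ℤ)) : Subgroup (GL (Fin 2) ℝ)) 2) :=
  (LinearEquiv.finrank_eq (equivPm M)).symm

/-- **DIM-7b**: `Aut ℂ`-stability of `S₂(±Γ₁(M))` gives `Wt2AutStable M`. -/
theorem wt2AutStable_of_pm
    (h : ∀ (σ : ℂ ≃+* ℂ)
      (F : CuspForm ((Gamma1pm M : Subgroup SL(2, ℤ)) : Subgroup (GL (Fin 2) ℝ)) 2),
      ∃ G : CuspForm ((Gamma1pm M : Subgroup SL(2, ℤ)) : Subgroup (GL (Fin 2) ℝ)) 2,
        ∀ n : ℕ, ModularFormClass.qCoeff G n = σ (ModularFormClass.qCoeff F n)) :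
    Fermat.Agent.DS.W1.ConjGlue.Wt2AutStable M := by
  intro σ F
  obtain ⟨G, hG⟩ := h σ (toPm M F)
  exact ⟨toGamma1 M G, fun n => hG n⟩

/-- The same for the level `L1 M` (`(L1 M).Gam = Gamma1pm M` definitionally). -/
theorem wt2AutStable_of_L1
    (h : ∀ (σ : ℂ ≃+* ℂ)
      (F : CuspForm (((L1 M).Gam : Subgroup SL(2, ℤ)) : Subgroup (GL (Fin 2) ℝ)) 2),
      ∃ G : CuspForm (((L1 M).Gam : Subgroup SL(2, ℤ)) : Subgroup (GL (Fin 2) ℝ)) 2,
        ∀ n : ℕ, ModularFormClass.qCoeff G n = σ (ModularFormClass.qCoeff F n)) :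
    Fermat.Agent.DS.W1.ConjGlue.Wt2AutStable M :=
  wt2AutStable_of_pm M h

/-- `T ∈ ±Γ₁(M)` (the cusp `∞` has width one). -/
theorem T_mem_Gamma1pm : ModularGroup.T ∈ Gamma1pm M := by
  refine Or.inl ?_
  rw [Gamma1_mem]
  simp [ModularGroup.T]

theorem one_mem_strictPeriods_Gamma1pm :
    (1 : ℝ) ∈ ((Gamma1pm M : Subgroup SL(2, ℤ)) : Subgroup (GL (Fin 2) ℝ)).strictPeriods := by
  rw [Subgroup.strictPeriods_eq_zmultiples_one_of_T_mem (T_mem_Gamma1pm M)]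
  exact AddSubgroup.mem_zmultiples 1

end Fermat.Agent.DS.G.Dim.PmTransfer
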