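/-
DS programme, chapter G-DIM, brick DIM-2 (helper26): GENERIC Riemann–Hurwitz orbit count.

Setting: a function field `F / K` with generator `x` (`FF.GenusHyp K x`), a finite `G`-set `X` with
`#X = [F : K(x)]`, and three fibres of `x` (over `c₀`, `c₁` and `∞`) parametrised by `X`:
`pl₀, pl₁, plI : X → Place K F`, invariant under `σ₀, σ₁, σI ∈ G` (with `σ₀ ^ p₀`, `σ₁ ^ p₁`
acting trivially, `p₀, p₁` prime), with the ramification bounds `ord ≤ pᵢ`, `ord = 1` at fixed
points, resp. `-ord ≤ #orbit` at `∞`, and `x` unramified over all other finite values.  Then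

  `deg (div ω) + o(σ₀) + o(σ₁) + o(σI) = #X`    (`o(σ)` = number of `⟨σ⟩`-orbits on `X`)

for every nonzero differential `ω`.  With Riemann–Roch (`deg (div ω) = 2 g - 2`) this is
`2 g + o(σ₀) + o(σ₁) + o(σI) = #X + 2` (file `GenusCountRR`).

This is the level-free replacement of `X0/PlaceCountX0` + `X0/S24Core` + `X0/GN*`: for
`X = SL(2, ℤ) ⧸ Γ`, `σ₀ = S T`, `σ₁ = S`, `σI = T` the same orbit counts occur in the upper bound
for the parabolic characters of `Γ` (`ParBoundG`), so no index / cusp / elliptic-point formula is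
needed to compare `dim Hom_par(Γ, ℂ)` with `2 g`.
-/
import Mathlib
import Fermat.Agent.X0.FFGenusCore
import Fermat.Agent.X0.PlaceCount
import Fermat.Agent.X0.OrbitCount

set_option autoImplicit false

namespace Fermat.Agent.DS.G.Dim.GenusCountG

open AlgebraicCurve MulAction Subgroup IntermediateField KaehlerDifferential
open Fermat.Agent.X0 Fermat.Agent.X0.FF Fermat.Agent.X0.PlaceCount Fermat.Agent.X0.OrbitCount

variable {K F : Type*} [Field K] [Field F] [Algebra K F]

/-- Invariance under a generator gives invariance under all integer powers. -/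
theorem inv_zpow {G X Y : Type*} [Group G] [MulAction G X] (σ : G) (pl : X → Y)
    (hinv : ∀ a, pl (σ • a) = pl a) (k : ℤ) : ∀ a : X, pl (σ ^ k • a) = pl a := by
  have hinv' : ∀ a, pl (σ⁻¹ • a) = pl a := by
    intro a
    rw [← hinv (σ⁻¹ • a), smul_inv_smul]
  induction k using Int.induction_on with
  | zero => intro a; simp
  | succ n ih =>
    intro a
    rw [_root_.zpow_add_one, mul_smul, ih, hinv]
  | pred n ih =>
    intro a
    rw [_root_.zpow_sub_one, mul_smul, ih, hinv']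

/-- Invariance under a generator gives invariance under `zpowers`. -/
theorem inv_zpowers {G X Y : Type*} [Group G] [MulAction G X] (σ : G) (pl : X → Y)
    (hinv : ∀ a, pl (σ • a) = pl a) (g : zpowers σ) (a : X) : pl (g • a) = pl a := by
  obtain ⟨g, hg⟩ := g
  obtain ⟨k, rfl⟩ := mem_zpowers_iff.mp hg
  exact inv_zpow σ pl hinv k a

/-- Fibre count when the fibre is parametrised by a finite `G`-set `X`, invariantly under an
element `σ` with `σ ^ p` acting trivially, `p` prime: the number of places in the fibre is the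
number of `⟨σ⟩`-orbits. -/
theorem count_of_prime {G X : Type*} [Group G] [MulAction G X] [Finite X] (f : F) (n : ℕ)
    (hcard : Nat.card X = n)
    (hfin : {v : Place K F | 0 < v.ord f}.Finite)
    (hsum : ∑ᶠ (v : Place K F) (_ : 0 < v.ord f), v.ord f = (n : ℤ))
    (σ : G) (p : ℕ) (hp : p.Prime) (hσ : ∀ a : X, σ ^ p • a = a)
    (pl : X → Place K F)
    (hpos : ∀ a, 0 < (pl a).ord f)
    (hsurj : ∀ v : Place K F, 0 < v.ord f → ∃ a, pl a = v)
    (hinv : ∀ a, pl (σ • a) = pl a)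
    (hle : ∀ a, (pl a).ord f ≤ p)
    (hfix : ∀ a, σ • a = a → (pl a).ord f = 1) :
    Nat.card {v : Place K F // 0 < v.ord f} = Nat.card (orbitRel.Quotient (zpowers σ) X) ∧
      ∀ a, σ • a ≠ a → (pl a).ord f = p := by
  have hle' : ∀ a, (pl a).ord f ≤ (Nat.card (orbit (zpowers σ) a) : ℤ) := by
    intro a
    by_cases h : σ • a = a
    · have e1 : Nat.card (orbit (zpowers σ) a) = 1 := card_orbit_zpowers_eq_one_iff.mpr h
      rw [e1, hfix a h]
      norm_num
    · have e1 : Nat.card (orbit (zpowers σ) a) = p :=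
        card_orbit_zpowers_of_prime hp (hσ a) h
      rw [e1]
      exact hle a
  obtain ⟨h1, h2⟩ := pc_zero_count (K := K) f n hfin hsum
    (X := X) (G := zpowers σ) hcard pl hpos hsurj (inv_zpowers σ pl hinv) hle'
  refine ⟨h1, fun a ha => ?_⟩
  have e1 : Nat.card (orbit (zpowers σ) a) = p := card_orbit_zpowers_of_prime hp (hσ a) ha
  rw [h2 a, e1]

/-- Pole count: the number of poles of `x` is the number of `⟨σ⟩`-orbits. -/
theorem count_poles {G X : Type*} [Group G] [MulAction G X] [Finite X] (x : F) (n : ℕ)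
    (hcard : Nat.card X = n)
    (hfin : {v : Place K F | v.ord x < 0}.Finite)
    (hsum : ∑ᶠ (v : Place K F) (_ : v.ord x < 0), -v.ord x = (n : ℤ))
    (σ : G) (pl : X → Place K F)
    (hneg : ∀ a, (pl a).ord x < 0)
    (hsurj : ∀ v : Place K F, v.ord x < 0 → ∃ a, pl a = v)
    (hinv : ∀ a, pl (σ • a) = pl a)
    (hle : ∀ a, -(pl a).ord x ≤ (Nat.card (orbit (zpowers σ) a) : ℤ)) :
    Nat.card {v : Place K F // v.ord x < 0} = Nat.card (orbitRel.Quotient (zpowers σ) X) ∧
      ∀ a, -(pl a).ord x = (Nat.card (orbit (zpowers σ) a) : ℤ) :=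
  pc_pole_count (K := K) x n hfin hsum (X := X) (G := zpowers σ) hcard pl hneg hsurj
    (inv_zpowers σ pl hinv) hle

variable {x : F}

/-- **DIM-2 (Riemann–Hurwitz, orbit form).**  The degree of the divisor of a nonzero
differential, in terms of orbit counts on the finite `G`-set parametrising the three special
fibres. -/
theorem degree_canonical_add_orbits (H : GenusHyp K x)
    {G X : Type*} [Group G] [MulAction G X] [Finite X]
    (hcard : Nat.card X = Module.finrank K⟮x⟯ F)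
    -- the first special fibre
    (c₀ : K) (σ₀ : G) (p₀ : ℕ) (hp₀ : p₀.Prime) (hσ₀ : ∀ a : X, σ₀ ^ p₀ • a = a)
    (pl₀ : X → Place K F)
    (hpos₀ : ∀ a, 0 < (pl₀ a).ord (x - algebraMap K F c₀))
    (hsurj₀ : ∀ v : Place K F, 0 < v.ord (x - algebraMap K F c₀) → ∃ a, pl₀ a = v)
    (hinv₀ : ∀ a, pl₀ (σ₀ • a) = pl₀ a)
    (hle₀ : ∀ a, (pl₀ a).ord (x - algebraMap K F c₀) ≤ p₀)
    (hfix₀ : ∀ a, σ₀ • a = a → (pl₀ a).ord (x - algebraMap K F c₀) = 1)
    -- the second special fibre
    (c₁ : K) (hc : c₀ ≠ c₁) (σ₁ : G) (p₁ : ℕ) (hp₁ : p₁.Prime) (hσ₁ : ∀ a : X, σ₁ ^ p₁ • a = a)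
    (pl₁ : X → Place K F)
    (hpos₁ : ∀ a, 0 < (pl₁ a).ord (x - algebraMap K F c₁))
    (hsurj₁ : ∀ v : Place K F, 0 < v.ord (x - algebraMap K F c₁) → ∃ a, pl₁ a = v)
    (hinv₁ : ∀ a, pl₁ (σ₁ • a) = pl₁ a)
    (hle₁ : ∀ a, (pl₁ a).ord (x - algebraMap K F c₁) ≤ p₁)
    (hfix₁ : ∀ a, σ₁ • a = a → (pl₁ a).ord (x - algebraMap K F c₁) = 1)
    -- the other finite values are unramified
    (hgen : ∀ c : K, c ≠ c₀ → c ≠ c₁ → ∀ v : Place K F,
      0 < v.ord (x - algebraMap K F c) → v.ord (x - algebraMap K F c) = 1)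
    -- the fibre over `∞`
    (σI : G) (plI : X → Place K F)
    (hnegI : ∀ a, (plI a).ord x < 0)
    (hsurjI : ∀ v : Place K F, v.ord x < 0 → ∃ a, plI a = v)
    (hinvI : ∀ a, plI (σI • a) = plI a)
    (hleI : ∀ a, -(plI a).ord x ≤ (Nat.card (orbit (zpowers σI) a) : ℤ))
    {ω : Ω[F⁄K]} (hω : ω ≠ 0) (W : Divisor K F) (hW : ∀ v, W v = v.ordDifferential ω) :
    Divisor.degree W + Nat.card (orbitRel.Quotient (zpowers σ₀) X)
        + Nat.card (orbitRel.Quotient (zpowers σ₁) X)
        + Nat.card (orbitRel.Quotient (zpowers σI) X) = (Nat.card X : ℤ) := by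
  classical
  have hS : ∀ c ∉ ({c₀, c₁} : Finset K), ∀ v : Place K F,
      0 < v.ord (x - algebraMap K F c) → v.ord (x - algebraMap K F c) = 1 := by
    intro c hc' v hv
    simp only [Finset.mem_insert, Finset.mem_singleton, not_or] at hc'
    exact hgen c hc'.1 hc'.2 v hv
  have hdeg := H.degree_canonical hω W hW ({c₀, c₁} : Finset K) hS
  have hsum0 := H.sum_ord_fibre c₀
  have hsum1 := H.sum_ord_fibre c₁
  have hsumInf := H.sum_ord_poles
  rw [← hcard] at hsum0 hsum1 hsumInf hdeg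
  have k0 := (count_of_prime (K := K) (x - algebraMap K F c₀) (Nat.card X) rfl
    (H.finite_fibre c₀) hsum0 σ₀ p₀ hp₀ hσ₀ pl₀ hpos₀ hsurj₀ hinv₀ hle₀ hfix₀).1
  have k1 := (count_of_prime (K := K) (x - algebraMap K F c₁) (Nat.card X) rfl
    (H.finite_fibre c₁) hsum1 σ₁ p₁ hp₁ hσ₁ pl₁ hpos₁ hsurj₁ hinv₁ hle₁ hfix₁).1
  have kI := (count_poles (K := K) x (Nat.card X) rfl H.finite_poles hsumInf σI plI hnegI hsurjI
    hinvI hleI).1
  rw [Finset.sum_pair hc, k0, k1, kI] at hdeg
  rw [hdeg]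
  ring

end Fermat.Agent.DS.G.Dim.GenusCountG
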