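/-
DS programme, chapter G-DIM, brick DIM-3 OVER `ℂ` (helper95, for helper26): **the Riemann–Hurwitz
orbit count for an analytic model `A : CModel F`**, via the API of the chapter G-KUM.

For `F / ℂ` with analytic model `A` (group `A.Gam ≤ SL(2, ℤ)`, `x = jC A`):
* `unramified_of_ne`      : `j` is unramified over every `c ≠ j(ρ) = 0, j(i) = 1728`;
* `hasCanonicalDivisor A` : `HasCanonicalDivisor (K := ℂ) (F := F)`;
* `degree_canonical_add_orbits A` : for a nonzero differential `ω` with divisor `W`,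
    `deg W + o(S T) + o(S) + o(T) = #(SL(2, ℤ) ⧸ A.Gam)`
  (`o(σ)` = number of `⟨σ⟩`-orbits on the coset space) — EXACTLY the hypothesis `hcount` of
  `DimLe.finrank_cuspForm_le_genus`;
* `two_mul_genus_add_orbits A` : `2 genus + o(S T) + o(S) + o(T) = #(SL(2, ℤ) ⧸ A.Gam) + 2`;
* `finrank_cuspForm_le_genus A` : `dim S₂(A.Gam) ≤ genus ℂ F`.

The three special fibres are parametrised by the coset space: `ptPlaceX A ρ`, `ptPlaceX A i`
(point places, `CPoint5`/`CExact5`) and `cuspPlaceXC A` (`CCuspPlaces16`); surjectivity is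
`DivAllPlaces25.pointSurj` / `CCuspSurj16.exists_cuspPlaceXC_eq`, the ramification indices are
`CPoint5.ptIdx_mul_ord_jC_sub`, `CExact5.ptIdx_eq_three_of_fixed_ST` / `ptIdx_eq_two_of_fixed_S` and
`CCuspExact16.neg_ord_jC_eq_card_orbit`.
-/
import Fermat.Agent.DS.G.ES.KUM.DivAllPlaces25
import Fermat.Agent.DS.G.ES.KUM.CCuspExact16
import Fermat.Agent.DS.G.Dim.GenusCountG
import Fermat.Agent.DS.G.Dim.DimLe
import Fermat.Agent.X0.FFCanon
import Fermat.Agent.X0.JOrderFinal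

set_option autoImplicit false
set_option linter.unusedSectionVars false
set_option linter.style.haveILetI false

open UpperHalfPlane AlgebraicCurve KaehlerDifferential MulAction Subgroup
open scoped MatrixGroups

noncomputable section

namespace Fermat.Agent.DS.G.Dim.S24C

open Fermat.Agent.X0 Fermat.Agent.X0.SurjPoint
  Fermat.Agent.DS.G.ES.KUM.Iface Fermat.Agent.DS.G.ES.KUM.CReal5
  Fermat.Agent.DS.G.ES.KUM.CPoint5 Fermat.Agent.DS.G.ES.KUM.CExact5
  Fermat.Agent.DS.G.ES.KUM.CCuspPlaces16 Fermat.Agent.DS.G.ES.KUM.CCuspSurj16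
  Fermat.Agent.DS.G.ES.KUM.CCuspExact16

variable {F : Type} [Field F] [Algebra ℂ F] (A : CModel F)

/-! ### point places indexed by cosets -/

/-- The point place at `z₀` attached to the coset `x = g Gam`. -/
def ptPlaceX (z₀ : ℍ) (x : A.Q) : Place ℂ F := ptPlaceC A (Quotient.out x) z₀

theorem ptPlaceX_mk (z₀ : ℍ) (g : SL(2, ℤ)) :
    ptPlaceX A z₀ (QuotientGroup.mk g : A.Q) = ptPlaceC A g z₀ :=
  ptPlaceC_of_mk_eq A (QuotientGroup.out_eq' (QuotientGroup.mk g : A.Q)).symm z₀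

/-- the ramification index of `ptPlaceX` -/
def ptIdxX (z₀ : ℍ) (x : A.Q) : ℕ := ptIdx A (Quotient.out x) z₀

theorem ptIdxX_mk (z₀ : ℍ) (g : SL(2, ℤ)) :
    ptIdxX A z₀ (QuotientGroup.mk g : A.Q) = ptIdx A g z₀ :=
  ptIdx_of_mk_eq A (QuotientGroup.out_eq' (QuotientGroup.mk g : A.Q)).symm z₀

theorem ptIdxX_pos (z₀ : ℍ) (x : A.Q) : 0 < ptIdxX A z₀ x := ptIdx_pos A _ z₀

theorem ptIdxX_mul_ord (z₀ : ℍ) (x : A.Q) :
    (ptIdxX A z₀ x : ℤ) * (ptPlaceX A z₀ x).ord (jC A - algebraMap ℂ F (jFun z₀)) = ellOrder z₀ :=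
  ptIdx_mul_ord_jC_sub A _ z₀

theorem ptPlaceX_ord_pos (z₀ : ℍ) (x : A.Q) :
    0 < (ptPlaceX A z₀ x).ord (jC A - algebraMap ℂ F (jFun z₀)) :=
  ord_jC_sub_pos A _ z₀

theorem ptPlaceX_ord_le (z₀ : ℍ) (x : A.Q) :
    (ptPlaceX A z₀ x).ord (jC A - algebraMap ℂ F (jFun z₀)) ≤ ellOrder z₀ := by
  have h := ptIdxX_mul_ord A z₀ x
  have h1 : (1 : ℤ) ≤ ptIdxX A z₀ x := by exact_mod_cast ptIdxX_pos A z₀ x
  have h2 := ptPlaceX_ord_pos A z₀ x
  nlinarith

/-- every place over `j = j(z₀)` is a `ptPlaceX A z₀ x`. -/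
theorem exists_ptPlaceX_eq (z₀ : ℍ) (v : Place ℂ F)
    (hv : 0 < v.ord (jC A - algebraMap ℂ F (jFun z₀))) : ∃ x : A.Q, ptPlaceX A z₀ x = v := by
  obtain ⟨g, hg⟩ := Fermat.Agent.DS.G.ES.KUM.DivAllPlaces25.pointSurj A v z₀ hv
  exact ⟨QuotientGroup.mk g, by rw [ptPlaceX_mk, hg]⟩

/-- invariance under an element fixing the base point. -/
theorem ptPlaceX_smul_of_fixed (z₀ : ℍ) (ε : SL(2, ℤ)) (hε : ε • z₀ = z₀) (x : A.Q) :
    ptPlaceX A z₀ (ε • x) = ptPlaceX A z₀ x := by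
  induction x using QuotientGroup.induction_on with
  | H g =>
    rw [MulAction.Quotient.smul_mk, ptPlaceX_mk, ptPlaceX_mk, smul_eq_mul]
    exact ptPlaceC_mul_left_of_fixed A ε g z₀ hε

/-- `ε` fixes the coset `g Gam` iff `g⁻¹ ε g ∈ Gam`. -/
theorem smul_mk_eq_iff (ε g : SL(2, ℤ)) :
    ε • (QuotientGroup.mk g : A.Q) = QuotientGroup.mk g ↔ g⁻¹ * ε * g ∈ A.Gam := by
  rw [MulAction.Quotient.smul_mk, QuotientGroup.eq]
  constructor
  · intro h
    have := inv_mem h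
    simpa [mul_assoc] using this
  · intro h
    have := inv_mem h
    simpa [mul_assoc] using this

/-- at a coset fixed by `S T`, the place over `ρ` is unramified over `j = 0`. -/
theorem ptPlaceX_ord_ptRho_of_fixed (x : A.Q)
    (hx : (ModularGroup.S * ModularGroup.T) • x = x) :
    (ptPlaceX A ptRho x).ord (jC A - algebraMap ℂ F (jFun ptRho)) = 1 := by
  induction x using QuotientGroup.induction_on with
  | H g =>
    have h3 : ptIdxX A ptRho (QuotientGroup.mk g : A.Q) = 3 := by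
      rw [ptIdxX_mk]
      exact ptIdx_eq_three_of_fixed_ST A g ((smul_mk_eq_iff A _ g).mp hx)
    have h := ptIdxX_mul_ord A ptRho (QuotientGroup.mk g : A.Q)
    rw [h3, Fermat.Agent.X0.JOrderMain.ellOrder_ptRho] at h
    push_cast at h
    omega

/-- at a coset fixed by `S`, the place over `i` is unramified over `j = 1728`. -/
theorem ptPlaceX_ord_ptI_of_fixed (x : A.Q) (hx : ModularGroup.S • x = x) :
    (ptPlaceX A ptI x).ord (jC A - algebraMap ℂ F (jFun ptI)) = 1 := by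
  induction x using QuotientGroup.induction_on with
  | H g =>
    have h2 : ptIdxX A ptI (QuotientGroup.mk g : A.Q) = 2 := by
      rw [ptIdxX_mk]
      exact ptIdx_eq_two_of_fixed_S A g ((smul_mk_eq_iff A _ g).mp hx)
    have h := ptIdxX_mul_ord A ptI (QuotientGroup.mk g : A.Q)
    rw [h2, Fermat.Agent.X0.JOrderMain.ellOrder_ptI] at h
    push_cast at h
    omega

/-! ### unramifiedness outside `0`, `1728` -/

/-- `j` is unramified over every `c ≠ j(ρ), j(i)`. -/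
theorem unramified_of_ne (c : ℂ) (h0 : c ≠ jFun ptRho) (h1 : c ≠ jFun ptI) (v : Place ℂ F)
    (hv : 0 < v.ord (jC A - algebraMap ℂ F c)) : v.ord (jC A - algebraMap ℂ F c) = 1 := by
  obtain ⟨z₀, rfl⟩ := jFun_surjective c
  obtain ⟨x, rfl⟩ := exists_ptPlaceX_eq A z₀ v hv
  have hell : ellOrder z₀ = 1 := by
    apply Fermat.Agent.X0.JOrderFinal.ellOrder_eq_one_of_jFun_ne
    · rw [← jFun_ptRho]; exact h0
    · rw [← jFun_ptI]; exact h1
  have h := ptIdxX_mul_ord A z₀ x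
  rw [hell] at h
  have h1 : (1 : ℤ) ≤ ptIdxX A z₀ x := by exact_mod_cast ptIdxX_pos A z₀ x
  have h2 := ptPlaceX_ord_pos A z₀ x
  push_cast at h
  nlinarith

theorem jFun_ptRho_ne_ptI : jFun ptRho ≠ jFun ptI := by
  rw [jFun_ptRho, jFun_ptI]
  norm_num

include A in
/-- **`F / ℂ` has canonical divisors.** -/
theorem hasCanonicalDivisor : HasCanonicalDivisor (K := ℂ) (F := F) := by
  classical
  refine FFCanon.hasCanonicalDivisor (Fermat.Agent.DS.G.ES.KUM.Degree.isGen_jC A)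
    ({jFun ptRho, jFun ptI} : Finset ℂ) fun c hc v hv => ?_
  simp only [Finset.mem_insert, Finset.mem_singleton, not_or] at hc
  exact unramified_of_ne A c hc.1 hc.2 v hv

/-! ### the Riemann–Hurwitz orbit count -/

theorem ST_cube_smul (x : A.Q) : (ModularGroup.S * ModularGroup.T) ^ 3 • x = x := by
  rw [ST_cube_eq]
  exact A.neg_one_smul x

theorem S_sq_smul (x : A.Q) : ModularGroup.S ^ 2 • x = x := by
  rw [S_sq_eq]
  exact A.neg_one_smul x

/-- **DIM-3 over `ℂ`**: `deg (div ω) + o(S T) + o(S) + o(T) = #(SL(2, ℤ) ⧸ Gam)`. -/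
theorem degree_canonical_add_orbits {ω : Ω[F⁄ℂ]} (hω : ω ≠ 0) (W : Divisor ℂ F)
    (hW : ∀ v, W v = v.ordDifferential ω) :
    Divisor.degree W
        + Nat.card (orbitRel.Quotient (zpowers (ModularGroup.S * ModularGroup.T : SL(2, ℤ)))
            (SL(2, ℤ) ⧸ A.Gam))
        + Nat.card (orbitRel.Quotient (zpowers (ModularGroup.S : SL(2, ℤ))) (SL(2, ℤ) ⧸ A.Gam))
        + Nat.card (orbitRel.Quotient (zpowers (ModularGroup.T : SL(2, ℤ))) (SL(2, ℤ) ⧸ A.Gam))
      = (Nat.card (SL(2, ℤ) ⧸ A.Gam) : ℤ) := by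
  haveI : Finite (SL(2, ℤ) ⧸ A.Gam) := inferInstanceAs (Finite A.Q)
  refine Fermat.Agent.DS.G.Dim.GenusCountG.degree_canonical_add_orbits
    (FFGenus.genusHyp (Fermat.Agent.DS.G.ES.KUM.Degree.isGen_jC A))
    (G := SL(2, ℤ)) (X := SL(2, ℤ) ⧸ A.Gam)
    (Fermat.Agent.DS.G.ES.KUM.Degree.card_eq_finrank_jC A)
    -- the fibre over `j(ρ) = 0`
    (jFun ptRho) (ModularGroup.S * ModularGroup.T) 3 Nat.prime_three (ST_cube_smul A)
    (ptPlaceX A ptRho) (ptPlaceX_ord_pos A ptRho) (exists_ptPlaceX_eq A ptRho)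
    (ptPlaceX_smul_of_fixed A ptRho _ ho_ST_smul_ptRho)
    (fun a => by
      have := ptPlaceX_ord_le A ptRho a
      rwa [Fermat.Agent.X0.JOrderMain.ellOrder_ptRho] at this)
    (ptPlaceX_ord_ptRho_of_fixed A)
    -- the fibre over `j(i) = 1728`
    (jFun ptI) jFun_ptRho_ne_ptI ModularGroup.S 2 Nat.prime_two (S_sq_smul A)
    (ptPlaceX A ptI) (ptPlaceX_ord_pos A ptI) (exists_ptPlaceX_eq A ptI)
    (ptPlaceX_smul_of_fixed A ptI _ ho_S_smul_ptI)
    (fun a => by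
      have := ptPlaceX_ord_le A ptI a
      rwa [Fermat.Agent.X0.JOrderMain.ellOrder_ptI] at this)
    (ptPlaceX_ord_ptI_of_fixed A)
    -- unramified elsewhere
    (fun c h0 h1 v hv => unramified_of_ne A c h0 h1 v hv)
    -- the cusps
    ModularGroup.T (cuspPlaceXC A) (cuspPlaceXC_ord_jC_neg A) (exists_cuspPlaceXC_eq A)
    (fun a => cuspPlaceXC_smul_zpowers_T A ⟨ModularGroup.T, mem_zpowers _⟩ a)
    (fun a => (neg_ord_jC_eq_card_orbit A a).le)
    hω W hW

/-- **The genus formula in orbit form**: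
`2 genus + o(S T) + o(S) + o(T) = #(SL(2, ℤ) ⧸ Gam) + 2`. -/
theorem two_mul_genus_add_orbits :
    haveI := hasCanonicalDivisor A
    2 * genus ℂ F
        + Nat.card (orbitRel.Quotient (zpowers (ModularGroup.S * ModularGroup.T : SL(2, ℤ)))
            (SL(2, ℤ) ⧸ A.Gam))
        + Nat.card (orbitRel.Quotient (zpowers (ModularGroup.S : SL(2, ℤ))) (SL(2, ℤ) ⧸ A.Gam))
        + Nat.card (orbitRel.Quotient (zpowers (ModularGroup.T : SL(2, ℤ))) (SL(2, ℤ) ⧸ A.Gam))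
      = Nat.card (SL(2, ℤ) ⧸ A.Gam) + 2 := by
  haveI := hasCanonicalDivisor A
  obtain ⟨ω, hω⟩ := FFGenus.exists_differential_ne_zero
    (Fermat.Agent.DS.G.ES.KUM.Degree.isGen_jC A)
  obtain ⟨W, hW⟩ := HasCanonicalDivisor.exists_divisor (K := ℂ) (F := F) ω hω
  exact Fermat.Agent.DS.G.Dim.DimLe.two_mul_genus_add_orbits
    (Fermat.Agent.DS.G.ES.KUM.Degree.isGen_jC A) hω hW
    (degree_canonical_add_orbits A hω W hW)

/-- **DIM-4 over `ℂ`**: `dim S₂(Gam) ≤ genus (F / ℂ)`. -/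
theorem finrank_cuspForm_le_genus :
    haveI := hasCanonicalDivisor A
    Module.finrank ℂ (CuspForm (A.Gam : Subgroup (GL (Fin 2) ℝ)) 2) ≤ genus ℂ F := by
  haveI := hasCanonicalDivisor A
  obtain ⟨ω, hω⟩ := FFGenus.exists_differential_ne_zero
    (Fermat.Agent.DS.G.ES.KUM.Degree.isGen_jC A)
  obtain ⟨W, hW⟩ := HasCanonicalDivisor.exists_divisor (K := ℂ) (F := F) ω hω
  exact Fermat.Agent.DS.G.Dim.DimLe.finrank_cuspForm_le_genus A.Gam A.neg_one_mem
    (Fermat.Agent.DS.G.ES.KUM.Degree.isGen_jC A) hω hW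
    (degree_canonical_add_orbits A hω W hW)

end Fermat.Agent.DS.G.Dim.S24C
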