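/-
Programme DS (S48), chapter G-DIM, brick DIM-7c (helper2; spec of helper26): **`Wt2AutStable M`**,
the stability of `S₂(Γ₁(M))` under `Aut ℂ` acting on `q`-expansions, assembled from

* the analytic model of `±Γ₁(M)` over `ℂ` (`X1/KumGamma1`, `X1/Inst13`): `isGen_j1`,
  `realizeDataC1`, `cuspDataC1`;
* the dictionary "regular differential ⇒ cusp form" (`G/S20/Low`, DIM-5) at `Lc = ℂ`, `ι = id`;
* `dim S₂(±Γ₁(M)) ≤ genus` (`Dim/DimLe`, DIM-4) from the Riemann–Hurwitz orbit count `hcount`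
  (DIM-3, `Dim/S24C`);
* Riemann–Roch (`RR/RRMain`): `dim L(div dj) = genus`;
* the Galois argument (`Dim/AutStableC`, DIM-6) and the transfer `±Γ₁(M) ↔ Γ₁(M)` (`Dim/PmTransfer`).
-/
import Mathlib
import Fermat.Agent.DS.X1.KumGamma1
import Fermat.Agent.DS.G.Dim.AutStableC
import Fermat.Agent.DS.G.Dim.PmTransfer
import Fermat.Agent.DS.G.Dim.DimLe
import Fermat.Agent.DS.G.Dim.S24C
import Fermat.Agent.DS.G.S20.ThetaJ
import Fermat.Agent.DS.G.S20.Low
import Fermat.Agent.DS.X1.Inst13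
import Fermat.Agent.RR.RRMain

set_option autoImplicit false
set_option synthInstance.maxHeartbeats 400000
set_option linter.style.haveILetI false
set_option linter.unusedSectionVars false

open AlgebraicCurve KaehlerDifferential MulAction Subgroup
open scoped MatrixGroups

namespace Fermat.Agent.DS.G.Dim.Top

open Fermat.Agent.X0.FF ModularGroup Fermat.Agent.DS.G.Level Fermat.Agent.DS.X1.Level1
open Fermat.Agent.DS.X1.KumGamma1 Fermat.Agent.DS.G.S20.ThetaJ

variable (M : ℕ) [NeZero M]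

/-- `Wt2AutStable M` from the canonical divisor instance, the Riemann–Hurwitz orbit count and the
dictionary `hLow` (all three at `Lc = ℂ`). -/
theorem wt2AutStable_of_count_low
    [HasCanonicalDivisor (K := ℂ) (F := FFc (L1 M) ℂ)]
    (hcount : Divisor.degree (canonicalDivisorOf (D_ne_zero (isGen_j1 M)))
        + Nat.card (orbitRel.Quotient (zpowers (S * T : SL(2, ℤ))) (SL(2, ℤ) ⧸ Gamma1pm M))
        + Nat.card (orbitRel.Quotient (zpowers (S : SL(2, ℤ))) (SL(2, ℤ) ⧸ Gamma1pm M))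
        + Nat.card (orbitRel.Quotient (zpowers (T : SL(2, ℤ))) (SL(2, ℤ) ⧸ Gamma1pm M))
        = (Nat.card (SL(2, ℤ) ⧸ Gamma1pm M) : ℤ))
    (hLow : ∀ h : FFc (L1 M) ℂ,
      (∀ v : Place ℂ (FFc (L1 M) ℂ),
        0 ≤ v.ordDifferential (h • D ℂ (FFc (L1 M) ℂ) (jFc (L1 M) ℂ))) →
      ∃ f : CuspForm ((Gamma1pm M : Subgroup SL(2, ℤ)) : Subgroup (GL (Fin 2) ℝ)) 2,
        (∀ n : ℕ, ModularFormClass.qCoeff f n
          = ((h : LaurentSeries ℂ) * thetaJc ℂ).coeff (n : ℤ)) ∧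
        ∀ k : ℤ, k < 0 → ((h : LaurentSeries ℂ) * thetaJc ℂ).coeff k = 0) :
    Fermat.Agent.DS.W1.ConjGlue.Wt2AutStable M := by
  have hx := isGen_j1 M
  have hω := D_ne_zero hx
  have hW := fun v => canonicalDivisorOf_apply (K := ℂ) (F := FFc (L1 M) ℂ) hω v
  haveI : FiniteDimensional ℂ (riemannRochSpace (canonicalDivisorOf hω)) :=
    Fermat.Agent.RR.RRMain.finiteDimensional_L hx _
  haveI : FiniteDimensional ℂ
      (CuspForm ((Gamma1pm M : Subgroup SL(2, ℤ)) : Subgroup (GL (Fin 2) ℝ)) 2) :=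
    DimLe.finiteDimensional_cuspForm (Gamma1pm M)
  have hdim : Module.finrank ℂ
        (CuspForm ((Gamma1pm M : Subgroup SL(2, ℤ)) : Subgroup (GL (Fin 2) ℝ)) 2)
      ≤ Module.finrank ℂ (riemannRochSpace (canonicalDivisorOf hω)) := by
    rw [Fermat.Agent.RR.RRMain.finrank_L_dx_eq_genus hx]
    exact DimLe.finrank_cuspForm_le_genus (Gamma1pm M) (neg_one_mem_Gamma1pm M) hx hω hW hcount
  refine PmTransfer.wt2AutStable_of_pm M ?_
  exact AutStableC.autStable_of_low (L1 M) hx (canonicalDivisorOf hω) hW (thetaJc ℂ)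
    (thetaJc_ne_zero ℂ)
    (fun k => by
      obtain ⟨r, hr⟩ := thetaJc_rat ℂ k
      exact ⟨r, by rw [hr]; rfl⟩)
    (PmTransfer.one_mem_strictPeriods_Gamma1pm M) hLow hdim

/-- `Wt2AutStable M` from the canonical divisor instance and the Riemann–Hurwitz orbit count. -/
theorem wt2AutStable_of_count
    [HasCanonicalDivisor (K := ℂ) (F := FFc (L1 M) ℂ)]
    (hcount : Divisor.degree (canonicalDivisorOf (D_ne_zero (isGen_j1 M)))
        + Nat.card (orbitRel.Quotient (zpowers (S * T : SL(2, ℤ))) (SL(2, ℤ) ⧸ Gamma1pm M))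
        + Nat.card (orbitRel.Quotient (zpowers (S : SL(2, ℤ))) (SL(2, ℤ) ⧸ Gamma1pm M))
        + Nat.card (orbitRel.Quotient (zpowers (T : SL(2, ℤ))) (SL(2, ℤ) ⧸ Gamma1pm M))
        = (Nat.card (SL(2, ℤ) ⧸ Gamma1pm M) : ℤ)) :
    Fermat.Agent.DS.W1.ConjGlue.Wt2AutStable M :=
  wt2AutStable_of_count_low M hcount fun h hreg =>
    Fermat.Agent.DS.G.S20.Low.exists_cuspForm_of_regular_full_C
      (Fermat.Agent.DS.X1.Inst13.realizeDataC1 M) (Fermat.Agent.DS.X1.Inst13.cuspDataC1 M)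
      (PmTransfer.T_mem_Gamma1pm M) (Fermat.Agent.X0.FFGenus.genusHyp (isGen_j1 M)) h hreg

/-- **DIM-7c: `S₂(Γ₁(M))` is stable under `Aut ℂ` acting on `q`-expansions**, for every level
`M ≥ 1`, unconditionally. -/
theorem wt2AutStable : Fermat.Agent.DS.W1.ConjGlue.Wt2AutStable M := by
  haveI : HasCanonicalDivisor (K := ℂ) (F := FFc (L1 M) ℂ) :=
    S24C.hasCanonicalDivisor (modelC M)
  have hω := D_ne_zero (isGen_j1 M)
  exact wt2AutStable_of_count M
    (S24C.degree_canonical_add_orbits (modelC M) hω _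
      (fun v => canonicalDivisorOf_apply (K := ℂ) (F := FFc (L1 M) ℂ) hω v))

/-- The same, in the shape consumed by `Asm/GeoGlue` / `Asm/GeoFinal`. -/
theorem wt2AutStable_all : ∀ M : ℕ, M ≠ 0 → Fermat.Agent.DS.W1.ConjGlue.Wt2AutStable M :=
  fun M hM => haveI : NeZero M := ⟨hM⟩; wt2AutStable M

end Fermat.Agent.DS.G.Dim.Top
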