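/-
DS programme, chapter G-DIM (helper26): linearity and injectivity of the `q`-coefficient map
`f ↦ (qCoeff f n)_n` on `CuspForm Γ k` for ANY subgroup `Γ ≤ GL(2, ℝ)` having `1` as a strict
period (cusp `∞` of width one), any weight.  Generic twin of `S49/QExp` (Q1), (Q2).
-/
import Mathlib
import Fermat.Prelude.Def_FLTPrelim_Modularity

set_option autoImplicit false
set_option linter.unusedSectionVars false

open ModularFormClass UpperHalfPlane

noncomputable section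

namespace Fermat.Agent.DS.G.Dim.QCoeffG

variable {Γ : Subgroup (GL (Fin 2) ℝ)} [Γ.HasDetOne] {k : ℤ}

theorem qCoeff_smul (h1 : (1 : ℝ) ∈ Γ.strictPeriods) (c : ℂ) (f : CuspForm Γ k) (n : ℕ) :
    qCoeff ⇑(c • f) n = c * qCoeff ⇑f n := by
  unfold qCoeff
  rw [show (⇑(c • f) : ℍ → ℂ) = c • ⇑f from rfl, ModularForm.qExpansion_smul one_pos h1 c f]
  simp

theorem qCoeff_add (h1 : (1 : ℝ) ∈ Γ.strictPeriods) (f g : CuspForm Γ k) (n : ℕ) :
    qCoeff ⇑(f + g) n = qCoeff ⇑f n + qCoeff ⇑g n := by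
  unfold qCoeff
  rw [show (⇑(f + g) : ℍ → ℂ) = ⇑f + ⇑g from rfl, ModularForm.qExpansion_add one_pos h1 f g]
  simp

theorem qCoeff_sub (h1 : (1 : ℝ) ∈ Γ.strictPeriods) (f g : CuspForm Γ k) (n : ℕ) :
    qCoeff ⇑(f - g) n = qCoeff ⇑f n - qCoeff ⇑g n := by
  unfold qCoeff
  rw [show (⇑(f - g) : ℍ → ℂ) = ⇑f - ⇑g from rfl, ModularForm.qExpansion_sub one_pos h1 f g]
  simp

theorem qCoeff_zero_form (n : ℕ) : qCoeff ⇑(0 : CuspForm Γ k) n = 0 := by
  unfold qCoeff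
  rw [show (⇑(0 : CuspForm Γ k) : ℍ → ℂ) = 0 from rfl, qExpansion_zero]
  simp

/-- The coefficient map, as a `ℂ`-linear map to sequences. -/
def qCoeffLin (h1 : (1 : ℝ) ∈ Γ.strictPeriods) (k : ℤ) : CuspForm Γ k →ₗ[ℂ] (ℕ → ℂ) where
  toFun f n := qCoeff ⇑f n
  map_add' f g := funext fun n => qCoeff_add h1 f g n
  map_smul' c f := funext fun n => qCoeff_smul h1 c f n

@[simp] theorem qCoeffLin_apply (h1 : (1 : ℝ) ∈ Γ.strictPeriods) (f : CuspForm Γ k) (n : ℕ) :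
    qCoeffLin h1 k f n = qCoeff ⇑f n := rfl

theorem qCoeff_sum (h1 : (1 : ℝ) ∈ Γ.strictPeriods) {ι : Type*} (s : Finset ι)
    (c : ι → ℂ) (f : ι → CuspForm Γ k) (n : ℕ) :
    qCoeff ⇑(∑ i ∈ s, c i • f i) n = ∑ i ∈ s, c i * qCoeff ⇑(f i) n := by
  have h := congrFun (map_sum (qCoeffLin h1 k) (fun i => c i • f i) s) n
  rw [qCoeffLin_apply, Finset.sum_apply] at h
  rw [h]
  refine Finset.sum_congr rfl fun i _ => ?_
  rw [qCoeffLin_apply, qCoeff_smul h1]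

theorem eq_zero_of_forall_qCoeff_eq_zero (h1 : (1 : ℝ) ∈ Γ.strictPeriods) (f : CuspForm Γ k)
    (h : ∀ n, qCoeff ⇑f n = 0) : f = 0 := by
  have : Fact (IsCusp OnePoint.infty Γ) := ⟨Subgroup.isCusp_of_mem_strictPeriods one_pos h1⟩
  have h0 : qExpansion 1 ⇑f = 0 := by
    ext n
    simpa [qCoeff] using h n
  have := (qExpansion_eq_zero_iff one_pos
    (SlashInvariantFormClass.periodic_comp_ofComplex f h1) (ModularFormClass.holo f)
    (ModularFormClass.bdd_at_infty f)).mp h0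
  exact DFunLike.coe_injective this

theorem eq_of_forall_qCoeff_eq (h1 : (1 : ℝ) ∈ Γ.strictPeriods) (f g : CuspForm Γ k)
    (h : ∀ n, qCoeff ⇑f n = qCoeff ⇑g n) : f = g := by
  rw [← sub_eq_zero]
  apply eq_zero_of_forall_qCoeff_eq_zero h1
  intro n
  rw [qCoeff_sub h1, h n, sub_self]

theorem qCoeffLin_injective (h1 : (1 : ℝ) ∈ Γ.strictPeriods) (k : ℤ) :
    Function.Injective (qCoeffLin (Γ := Γ) h1 k) :=
  fun f g h => eq_of_forall_qCoeff_eq h1 f g fun n => congrFun h n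

/-- **Rational spanning family ⇒ `Aut ℂ`-stability** (DIM-7a).  If `CuspForm Γ k` is spanned over
`ℂ` by forms with rational `q`-coefficients, then for every ring automorphism `σ` of `ℂ` and every
`F` there is `G` with `a_n(G) = σ (a_n(F))`. -/
theorem exists_conj_of_rational_spanning (h1 : (1 : ℝ) ∈ Γ.strictPeriods)
    {ι : Type*} (f : ι → CuspForm Γ k)
    (hrat : ∀ i n, ∃ r : ℚ, qCoeff ⇑(f i) n = (r : ℂ))
    (hspan : Submodule.span ℂ (Set.range f) = ⊤) (σ : ℂ ≃+* ℂ) (F : CuspForm Γ k) :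
    ∃ G : CuspForm Γ k, ∀ n : ℕ, qCoeff ⇑G n = σ (qCoeff ⇑F n) := by
  have hF : F ∈ Submodule.span ℂ (Set.range f) := hspan ▸ Submodule.mem_top
  obtain ⟨c, hc⟩ := Finsupp.mem_span_range_iff_exists_finsupp.mp hF
  refine ⟨c.sum fun i a => σ a • f i, fun n => ?_⟩
  rw [← hc, Finsupp.sum, Finsupp.sum, qCoeff_sum h1, qCoeff_sum h1, map_sum]
  refine Finset.sum_congr rfl fun i _ => ?_
  obtain ⟨r, hr⟩ := hrat i n
  rw [map_mul, hr, map_ratCast]

end Fermat.Agent.DS.G.Dim.QCoeffG
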