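/-
Programme DS (S48), chapter G-DIM, brick DIM-3 (helper46): generic twin of
`X0/S24Points` + `X0/S24PointsD` + the assembly of `S24`, with conclusion in ORBIT-COUNT form.

For `(L : LevelData)`, a coefficient field `Lc` with injective `ι : Lc →+* ℂ`,
`D : RealizeDataL L Lc ι`, `C : CuspDataL L Lc ι D`:  the Riemann–Hurwitz count for
`j : X_L → ℙ¹` in the form

  `deg (div ω) + o(S T) + o(S) + o(T) = #(SL(2, ℤ) ⧸ L.Gam)`

(`o(g)` = number of `⟨g⟩`-orbits on `SL(2, ℤ) ⧸ L.Gam`), for every nonzero differential `ω`, by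
feeding `GenusCountG.degree_canonical_add_orbits` with the point places over `j = 0` (`z₀ = ρ`),
`j = 1728` (`z₀ = i`) and the cusp places.

Named HYPOTHESES (twins not yet landed): `H : GenusHyp Lc (jFc L Lc)` (from `IsGen`, Degree twin),
`hcard` (Degree twin), `hsurjP : SurjP D` (PointSurjT twin), `hsurjC : SurjC hC` (CuspSurj twin).
-/
import Mathlib
import Fermat.Agent.DS.G.Dim.GenusCountG
import Fermat.Agent.DS.G.X0.PointPlacesD
import Fermat.Agent.DS.G.X0.CuspPlaces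
import Fermat.Agent.DS.G.X0.CuspGood
import Fermat.Agent.DS.G.X0.CosetAction
import Fermat.Agent.DS.G.X0.HasCanDiv
import Fermat.Agent.X0.JBasic
import Fermat.Agent.X0.HolSymm
import Fermat.Agent.X0.JOrderMain

set_option autoImplicit false
set_option linter.unusedSectionVars false

namespace Fermat.Agent.DS.G.Dim.S24G

open AlgebraicCurve MulAction Subgroup Matrix MatrixGroups ModularGroup IntermediateField
open UpperHalfPlane KaehlerDifferential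
open Fermat.Agent.X0 Fermat.Agent.X0.FF Fermat.Agent.X0.JOrderMain Fermat.Agent.DS.G.Level
open Fermat.Agent.DS.G.X0.PointPlaces Fermat.Agent.DS.G.X0.PointPlacesD
open Fermat.Agent.DS.G.X0.HasCanDiv

variable {L : LevelData} {Lc : Type} [Field Lc] [Algebra ℚ Lc] {ι : Lc →+* ℂ}
  [IsFractionRing (Rsubc L Lc) (FFc L Lc)]

/-- The surjectivity hypothesis on cusp places (twin of `CuspSurj.exists_cuspPlace_eq`). -/
def SurjC {D : RealizeDataL L Lc ι} {C : CuspDataL L Lc ι D} (hC : Fermat.Agent.DS.G.X0.CuspPlaces.Good C) : Prop :=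
  ∀ v : Place Lc (FFc L Lc), v.ord (jFc L Lc) < 0 → ∃ g : SL(2, ℤ), Fermat.Agent.DS.G.X0.CuspPlaces.cuspPlace hC g = v

/-- **DIM-3 (Riemann–Hurwitz for `j : X_L → ℙ¹`, orbit form).** -/
theorem degree_canonical_add_orbits_L (hι : Function.Injective ι)
    (D : RealizeDataL L Lc ι) {C : CuspDataL L Lc ι D} (hC : Fermat.Agent.DS.G.X0.CuspPlaces.Good C)
    (H : GenusHyp Lc (jFc L Lc))
    (hcard : Nat.card (SL(2, ℤ) ⧸ L.Gam) = Module.finrank Lc⟮jFc L Lc⟯ (FFc L Lc))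
    (hsurjP : SurjP D) (hsurjC : SurjC hC)
    {ω : Ω[FFc L Lc⁄Lc]} (hω : ω ≠ 0) (W : Divisor Lc (FFc L Lc))
    (hW : ∀ v, W v = v.ordDifferential ω) :
    Divisor.degree W
        + Nat.card (orbitRel.Quotient (zpowers (S * T : SL(2, ℤ))) (SL(2, ℤ) ⧸ L.Gam))
        + Nat.card (orbitRel.Quotient (zpowers (S : SL(2, ℤ))) (SL(2, ℤ) ⧸ L.Gam))
        + Nat.card (orbitRel.Quotient (zpowers (T : SL(2, ℤ))) (SL(2, ℤ) ⧸ L.Gam))
      = (Nat.card (SL(2, ℤ) ⧸ L.Gam) : ℤ) := by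
  -- the two special points
  have hc0 : jFun ((1 : SL(2, ℤ)) • ptRho) = ι 0 := by
    rw [one_smul, jFun_ptRho, map_zero]
  have hc1 : jFun ((1 : SL(2, ℤ)) • ptI) = ι 1728 := by
    rw [one_smul, jFun_ptI, map_ofNat]
  have hfixρ : (S * T : SL(2, ℤ)) • ((1 : SL(2, ℤ)) • ptRho) = (1 : SL(2, ℤ)) • ptRho := by
    rw [one_smul]
    exact ho_ST_smul_ptRho
  have hfixI : (S : SL(2, ℤ)) • ((1 : SL(2, ℤ)) • ptI) = (1 : SL(2, ℤ)) • ptI := by
    rw [one_smul]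
    exact ho_S_smul_ptI
  have hsurjX : ∀ (z₀ : ℍ) (c : Lc) (hc : jFun z₀ = ι c) (v : Place Lc (FFc L Lc)),
      0 < v.ord (jFc L Lc - algebraMap Lc (FFc L Lc) c) →
      ∃ a, (pointPlaceDX D z₀ c hc a).1 = v := by
    intro z₀ c hc v hv
    obtain ⟨g, hg⟩ := hsurjP z₀ c hc v hv
    exact ⟨QuotientGroup.mk g, by rw [pointPlaceDX_mk, hg]⟩
  -- fibre over `0`
  let pl₀ : SL(2, ℤ) ⧸ L.Gam → Place Lc (FFc L Lc) :=
    fun a => (pointPlaceDX D ((1 : SL(2, ℤ)) • ptRho) 0 hc0 a).1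
  have hpos₀ : ∀ a, 0 < (pl₀ a).ord (jFc L Lc - algebraMap Lc (FFc L Lc) 0) :=
    fun a => (pointPlaceDX D _ 0 hc0 a).2
  have hsurj₀ : ∀ v : Place Lc (FFc L Lc), 0 < v.ord (jFc L Lc - algebraMap Lc (FFc L Lc) 0) →
      ∃ a, pl₀ a = v := hsurjX _ 0 hc0
  have hinv₀ : ∀ a, pl₀ ((S * T : SL(2, ℤ)) • a) = pl₀ a := by
    intro a
    show (pointPlaceDX D _ 0 hc0 _).1 = (pointPlaceDX D _ 0 hc0 a).1
    rw [pointPlaceDX_smul_of_fixed D _ 0 hc0 _ hfixρ a]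
  have hle₀ : ∀ a, (pl₀ a).ord (jFc L Lc - algebraMap Lc (FFc L Lc) 0) ≤ ((3 : ℕ) : ℤ) := by
    intro a
    have h := pointPlaceDX_ord_le D _ 0 hc0 a
    have e : ellOrder ((1 : SL(2, ℤ)) • ptRho) = 3 := by rw [ellOrder_smul, ellOrder_ptRho]
    rw [e] at h
    exact_mod_cast h
  have hfix₀ : ∀ a, (S * T : SL(2, ℤ)) • a = a →
      (pl₀ a).ord (jFc L Lc - algebraMap Lc (FFc L Lc) 0) = 1 := by
    intro a ha
    refine pointPlaceDX_ord_of_fixed_ST D 0 1 hc0 a ?_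
    rw [one_mul, inv_one, mul_one]
    exact ha
  -- fibre over `1728`
  let pl₁ : SL(2, ℤ) ⧸ L.Gam → Place Lc (FFc L Lc) :=
    fun a => (pointPlaceDX D ((1 : SL(2, ℤ)) • ptI) 1728 hc1 a).1
  have hpos₁ : ∀ a, 0 < (pl₁ a).ord (jFc L Lc - algebraMap Lc (FFc L Lc) 1728) :=
    fun a => (pointPlaceDX D _ 1728 hc1 a).2
  have hsurj₁ : ∀ v : Place Lc (FFc L Lc),
      0 < v.ord (jFc L Lc - algebraMap Lc (FFc L Lc) 1728) → ∃ a, pl₁ a = v :=
    hsurjX _ 1728 hc1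
  have hinv₁ : ∀ a, pl₁ ((S : SL(2, ℤ)) • a) = pl₁ a := by
    intro a
    show (pointPlaceDX D _ 1728 hc1 _).1 = (pointPlaceDX D _ 1728 hc1 a).1
    rw [pointPlaceDX_smul_of_fixed D _ 1728 hc1 _ hfixI a]
  have hle₁ : ∀ a, (pl₁ a).ord (jFc L Lc - algebraMap Lc (FFc L Lc) 1728) ≤ ((2 : ℕ) : ℤ) := by
    intro a
    have h := pointPlaceDX_ord_le D _ 1728 hc1 a
    have e : ellOrder ((1 : SL(2, ℤ)) • ptI) = 2 := by rw [ellOrder_smul, ellOrder_ptI]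
    rw [e] at h
    exact_mod_cast h
  have hfix₁ : ∀ a, (S : SL(2, ℤ)) • a = a →
      (pl₁ a).ord (jFc L Lc - algebraMap Lc (FFc L Lc) 1728) = 1 := by
    intro a ha
    refine pointPlaceDX_ord_of_fixed_S D 1728 1 hc1 a ?_
    rw [one_mul, inv_one, mul_one]
    exact ha
  -- generic values
  have hgen : ∀ c : Lc, c ≠ 0 → c ≠ 1728 → ∀ v : Place Lc (FFc L Lc),
      0 < v.ord (jFc L Lc - algebraMap Lc (FFc L Lc) c) →
      v.ord (jFc L Lc - algebraMap Lc (FFc L Lc) c) = 1 :=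
    fun c h0 h1 v hv => unramified_of_surj hι D hsurjP c ⟨h0, h1⟩ v hv
  -- cusps
  have hsurjI : ∀ v : Place Lc (FFc L Lc), v.ord (jFc L Lc) < 0 → ∃ a, Fermat.Agent.DS.G.X0.CuspPlaces.cuspPlaceX hC a = v := by
    intro v hv
    obtain ⟨g, hg⟩ := hsurjC v hv
    exact ⟨QuotientGroup.mk g, hg⟩
  have hinvI : ∀ a, Fermat.Agent.DS.G.X0.CuspPlaces.cuspPlaceX hC ((T : SL(2, ℤ)) • a) = Fermat.Agent.DS.G.X0.CuspPlaces.cuspPlaceX hC a :=
    fun a => Fermat.Agent.DS.G.X0.CuspPlaces.cuspPlaceX_smul_zpowers_T hC ⟨T, mem_zpowers T⟩ a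
  have h01 : (0 : Lc) ≠ 1728 := by
    intro h
    have := congrArg ι h
    rw [map_zero, map_ofNat] at this
    norm_num at this
  exact GenusCountG.degree_canonical_add_orbits (K := Lc) (F := FFc L Lc) (x := jFc L Lc) H
    (G := SL(2, ℤ)) (X := SL(2, ℤ) ⧸ L.Gam) hcard
    0 (S * T : SL(2, ℤ)) 3 Nat.prime_three (Fermat.Agent.DS.G.X0.CosetAction.ST_cube_smul L)
    pl₀ hpos₀ hsurj₀ hinv₀ hle₀ hfix₀
    1728 h01 (S : SL(2, ℤ)) 2 Nat.prime_two (Fermat.Agent.DS.G.X0.CosetAction.S_sq_smul L)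
    pl₁ hpos₁ hsurj₁ hinv₁ hle₁ hfix₁ hgen
    (T : SL(2, ℤ)) (Fermat.Agent.DS.G.X0.CuspPlaces.cuspPlaceX hC) (Fermat.Agent.DS.G.X0.CuspPlaces.cuspPlaceX_ord_jF_neg hC) hsurjI hinvI
    (Fermat.Agent.DS.G.X0.CuspPlaces.cuspPlaceX_neg_ord_jF_le hC) hω W hW

/-- The same with `Fermat.Agent.DS.G.X0.CuspPlaces.Good C` discharged by the generic `CuspGood.good`. -/
theorem degree_canonical_add_orbits_L' (hι : Function.Injective ι)
    (D : RealizeDataL L Lc ι) (C : CuspDataL L Lc ι D)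
    (H : GenusHyp Lc (jFc L Lc))
    (hcard : Nat.card (SL(2, ℤ) ⧸ L.Gam) = Module.finrank Lc⟮jFc L Lc⟯ (FFc L Lc))
    (hsurjP : SurjP D) (hsurjC : SurjC (Fermat.Agent.DS.G.X0.CuspGood.good C))
    {ω : Ω[FFc L Lc⁄Lc]} (hω : ω ≠ 0) (W : Divisor Lc (FFc L Lc))
    (hW : ∀ v, W v = v.ordDifferential ω) :
    Divisor.degree W
        + Nat.card (orbitRel.Quotient (zpowers (S * T : SL(2, ℤ))) (SL(2, ℤ) ⧸ L.Gam))
        + Nat.card (orbitRel.Quotient (zpowers (S : SL(2, ℤ))) (SL(2, ℤ) ⧸ L.Gam))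
        + Nat.card (orbitRel.Quotient (zpowers (T : SL(2, ℤ))) (SL(2, ℤ) ⧸ L.Gam))
      = (Nat.card (SL(2, ℤ) ⧸ L.Gam) : ℤ) :=
  degree_canonical_add_orbits_L hι D (Fermat.Agent.DS.G.X0.CuspGood.good C) H hcard hsurjP hsurjC
    hω W hW

end Fermat.Agent.DS.G.Dim.S24G
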